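/-
S24, AN-D (AL-level), helper89: an `SL(2,ℤ)`-invariant element of `AL M` is a polynomial in `j`
with coefficients in `Kc`.

Proof: induction on the pole order at `∞` of the expansion in `u = exp(2πiτ/M)`.  Invariance under
`T` forces the expansion to be a series in `u^M = q`; subtracting `c • j^N` lowers the pole order;
a function without pole is a level one modular form of weight `0`, so it is constant, and the
constant is the `0`-th coefficient of the expansion, which lies in `Kc`.

The only inputs are the expansions of the generators (`hgens`).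
-/
import Mathlib
import Fermat.Prelude.Thm_ModularCurve_coeff_jqModC_pow_self
import Fermat.Prelude.Thm_ModularCurve_coeff_jqModC_pow_of_lt
import Fermat.Agent.F3.DictC.Field

set_option autoImplicit false

noncomputable section

namespace Fermat.Agent.F3DictInv

open Fermat.Agent.F3Dict
open UpperHalfPlane
open scoped MatrixGroups Manifold ModularForm

/-! ### Expansions of all elements of `AL M` -/

theorem exists_hasExp_of_mem_AL (M : ℕ) [NeZero M]
    (hgens : ∀ f ∈ gens M, ∃ a : LaurentSeries Kc, HasExp M f a)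
    {f : Fun} (hf : f ∈ AL M) : ∃ a : LaurentSeries Kc, HasExp M f a := by
  induction hf using Algebra.adjoin_induction with
  | mem x hx => exact hgens x hx
  | algebraMap c => exact ⟨_, HasExp.algebraMap M c⟩
  | add x y _ _ hx hy =>
      obtain ⟨a, ha⟩ := hx
      obtain ⟨b, hb⟩ := hy
      exact ⟨_, ha.add hb⟩
  | mul x y _ _ hx hy =>
      obtain ⟨a, ha⟩ := hx
      obtain ⟨b, hb⟩ := hy
      exact ⟨_, ha.mul hb⟩

theorem hasExp_pow {M : ℕ} [NeZero M] {f : Fun} {a : LaurentSeries Kc} (h : HasExp M f a)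
    (n : ℕ) : HasExp M (f ^ n) (a ^ n) := by
  induction n with
  | zero =>
      have h1 := HasExp.algebraMap M (1 : Kc)
      rw [map_one, map_one] at h1
      simpa using h1
  | succ n ih =>
      rw [pow_succ, pow_succ]
      exact ih.mul h

/-- The expansion of `j` in `u = exp(2πiτ/M)`. -/
theorem hasExp_jFun (M : ℕ) [NeZero M] :
    HasExp M jFun (ModularCurve.qExpand Kc M (ModularCurve.jqModC Kc)) := by
  have h1 : HasExp 1 jFun (ModularCurve.jqModC Kc) := by
    refine ⟨1, PowerSeries.map (Int.castRingHom Kc) ModularCurve.jNum, ?_, ?_⟩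
    · rw [ModularCurve.jqModC]
      simp
    · have h := hasPExp_jFun
      simpa using h
  have : NeZero (1 * M) := ⟨by rw [one_mul]; exact NeZero.ne M⟩
  have h2 := HasExp.qExpand (M := 1) M h1
  rwa [one_mul] at h2

/-! ### Coefficients -/

theorem coeff_eq_zero_of_lt_of_hasExp_aux (m : ℕ) (p : PowerSeries Kc) {n : ℤ}
    (hn : n < -(m : ℤ)) :
    (HahnSeries.single (-(m : ℤ)) (1 : Kc) * HahnSeries.ofPowerSeries ℤ Kc p).coeff n = 0 := by
  rw [HahnSeries.coeff_single_mul, one_mul]
  exact ModularCurve.ofPowerSeries_coeff_of_neg _ (by omega)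

theorem coeff_natCast_of_hasExp_aux (m : ℕ) (p : PowerSeries Kc) (n : ℕ) :
    (HahnSeries.single (-(m : ℤ)) (1 : Kc) * HahnSeries.ofPowerSeries ℤ Kc p).coeff
      ((n : ℤ) - m) = PowerSeries.coeff n p := by
  rw [HahnSeries.coeff_single_mul, one_mul]
  have : ((n : ℤ) - m - -(m : ℤ)) = ((n : ℕ) : ℤ) := by ring
  rw [this, HahnSeries.ofPowerSeries_apply_coeff]

/-- A pole-free expansion is a convergent power series in `u`. -/
theorem hasSum_of_hasExp {M : ℕ} [NeZero M] {f : Fun} {a : LaurentSeries Kc}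
    (h : HasExp M f a) (h0 : ∀ n : ℤ, n < 0 → a.coeff n = 0) (τ : ℍ) :
    HasSum (fun n : ℕ => iota (a.coeff (n : ℤ)) * uParam M τ ^ n) (f τ) := by
  obtain ⟨m, p, rfl, hp⟩ := h
  set a := HahnSeries.single (-(m : ℤ)) (1 : Kc) * HahnSeries.ofPowerSeries ℤ Kc p with ha
  have hu : uParam M τ ^ m ≠ 0 := pow_ne_zero _ (uParam_ne_zero M τ)
  have hs := (hp τ).2
  have hlow : ∀ i ∈ Finset.range m, iota (PowerSeries.coeff i p) * uParam M τ ^ i = 0 := by
    intro i hi
    have hi' : i < m := Finset.mem_range.mp hi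
    have e := coeff_natCast_of_hasExp_aux m p i
    rw [h0 _ (by omega)] at e
    rw [← e, map_zero, zero_mul]
  have hs2 : HasSum (fun n : ℕ => iota (PowerSeries.coeff (n + m) p) * uParam M τ ^ (n + m))
      (f τ * uParam M τ ^ m) := by
    have := (hasSum_nat_add_iff' (f := fun n : ℕ => iota (PowerSeries.coeff n p) * uParam M τ ^ n)
      (g := f τ * uParam M τ ^ m) m).mpr hs
    rwa [Finset.sum_eq_zero hlow, sub_zero] at this
  have e : (fun n : ℕ => (iota (a.coeff (n : ℤ)) * uParam M τ ^ n) * uParam M τ ^ m)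
      = (fun n : ℕ => iota (PowerSeries.coeff (n + m) p) * uParam M τ ^ (n + m)) := by
    funext n
    have e1 := coeff_natCast_of_hasExp_aux m p (n + m)
    have e2 : (((n + m : ℕ) : ℤ) - (m : ℤ)) = (n : ℤ) := by push_cast; ring
    rw [e2] at e1
    rw [← e1, pow_add, mul_assoc]
  have hs3 : HasSum (fun n : ℕ => (iota (a.coeff (n : ℤ)) * uParam M τ ^ n) * uParam M τ ^ m)
      (f τ * uParam M τ ^ m) := by
    rw [e]; exact hs2
  exact (hasSum_mul_right_iff hu).mp hs3

/-- Invariance under `T` forces the expansion to be a series in `u ^ M`. -/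
theorem coeff_eq_zero_of_T_smul {M : ℕ} [NeZero M] {f : Fun} {a : LaurentSeries Kc}
    (h : HasExp M f a) (hT : ModularGroup.T • f = f) {n : ℤ} (hn : ¬ (M : ℤ) ∣ n) :
    a.coeff n = 0 := by
  obtain ⟨b, hb, ζ, hζ, hcoeff⟩ := h.T_smul
  rw [hT] at hb
  have hab : a = b := h.unique hb
  subst hab
  by_contra hne
  have h1 : ζ⁻¹ ^ n = 1 := by
    have := hcoeff n
    have h2 : (1 : Kc) * a.coeff n = ζ⁻¹ ^ n * a.coeff n := by rw [one_mul]; exact this
    exact (mul_right_cancel₀ hne h2).symm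
  have h3 : ζ ^ n = 1 := by
    rw [inv_zpow, inv_eq_one] at h1
    exact h1
  have h4 : Complex.exp (2 * Real.pi * Complex.I / M) ^ n = 1 := by
    rw [← hζ, ← map_zpow₀, h3, map_one]
  rw [← Complex.exp_int_mul, Complex.exp_eq_one_iff] at h4
  obtain ⟨k, hk⟩ := h4
  have hM : (M : ℂ) ≠ 0 := Nat.cast_ne_zero.mpr (NeZero.ne M)
  have hpi : (2 * Real.pi * Complex.I : ℂ) ≠ 0 := Complex.two_pi_I_ne_zero
  have h5 : (n : ℂ) = (k : ℂ) * (M : ℂ) := by
    have h6 : (n : ℂ) * (2 * Real.pi * Complex.I) = (k * M : ℂ) * (2 * Real.pi * Complex.I) := by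
      have h8 : (n : ℂ) * (2 * Real.pi * Complex.I / M) * M
          = (k : ℂ) * (2 * Real.pi * Complex.I) * M := by rw [hk]
      rw [mul_assoc, div_mul_cancel₀ _ hM] at h8
      rw [h8]; ring
    exact mul_right_cancel₀ hpi h6
  have h7 : n = k * (M : ℤ) := by exact_mod_cast h5
  exact hn ⟨k, by rw [h7]; ring⟩

/-! ### The base case: no pole, so constant -/

theorem slash_zero_eq_of_smul_eq {f : Fun} (hinv : ∀ γ : SL(2, ℤ), γ • f = f) (γ : SL(2, ℤ)) :
    (fun τ : ℍ => f τ) ∣[(0 : ℤ)] γ = fun τ : ℍ => f τ := by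
  funext τ
  rw [ModularForm.SL_slash_apply]
  have h1 : f (γ • τ) = f τ := by
    have h2 := congrArg (fun g : Fun => g τ) (hinv γ⁻¹)
    simpa using h2
  rw [h1]
  simp

/-- The level one modular form of weight `0` given by an invariant holomorphic function which is
bounded at `∞`. -/
def formOfInvariant (f : Fun) (hinv : ∀ γ : SL(2, ℤ), γ • f = f) (hhol : IsHol f)
    (hbdd : IsBoundedAtImInfty (fun τ : ℍ => f τ)) : ModularForm 𝒮ℒ 0 where
  toFun := fun τ : ℍ => f τ
  slash_action_eq' := fun _ ⟨γ, hγ⟩ ↦ hγ ▸ slash_zero_eq_of_smul_eq hinv γ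
  holo' := hhol
  bdd_at_cusps' {c} hc := by
    rw [Subgroup.IsArithmetic.isCusp_iff_isCusp_SL2Z] at hc
    rw [OnePoint.isBoundedAt_iff_forall_SL2Z hc]
    intro γ _
    rw [slash_zero_eq_of_smul_eq hinv γ]
    exact hbdd

theorem eq_algebraMap_of_no_pole {M : ℕ} [NeZero M] {f : Fun} {a : LaurentSeries Kc}
    (hinv : ∀ γ : SL(2, ℤ), γ • f = f) (hhol : IsHol f) (h : HasExp M f a)
    (h0 : ∀ n : ℤ, n < 0 → a.coeff n = 0) : f = algebraMap Kc Fun (a.coeff 0) := by
  have hMpos : (0 : ℝ) < M := Nat.cast_pos.mpr (Nat.pos_of_ne_zero (NeZero.ne M))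
  have hsum : ∀ τ : ℍ, HasSum (fun n : ℕ => iota (a.coeff (n : ℤ)) •
      Function.Periodic.qParam (M : ℝ) (τ : ℂ) ^ n) (f τ) := by
    intro τ
    have := hasSum_of_hasExp h h0 τ
    simpa [uParam, smul_eq_mul] using this
  have hbdd : IsBoundedAtImInfty (fun τ : ℍ => f τ) :=
    UpperHalfPlane.isBoundedAtImInfty_of_hasSum_qExpansion hMpos hsum
  obtain ⟨c, hc⟩ := ModularFormClass.levelOne_weight_zero_const
    (formOfInvariant f hinv hhol hbdd)
  have hfc : ∀ τ : ℍ, f τ = c := fun τ => congrFun hc τ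
  have hM : (M : ℝ) ∈ (𝒮ℒ).strictPeriods := by
    have h1 : ((M : ℤ) • (1 : ℝ)) ∈ (𝒮ℒ).strictPeriods :=
      AddSubgroup.zsmul_mem _ one_mem_strictPeriods_SL (M : ℤ)
    simpa using h1
  have h1 := ModularFormClass.qExpansion_coeff_unique hMpos hM
    (f := formOfInvariant f hinv hhol hbdd) (c := fun n : ℕ => iota (a.coeff (n : ℤ))) hsum 0
  have h2 := ModularFormClass.qExpansion_coeff_unique hMpos hM
    (f := formOfInvariant f hinv hhol hbdd) (c := fun n : ℕ => if n = 0 then c else 0)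
    (fun τ => by
      have e : (fun m : ℕ => (if m = 0 then c else 0) •
          Function.Periodic.qParam (M : ℝ) (τ : ℂ) ^ m) = fun m : ℕ => if m = 0 then c else 0 := by
        funext m
        by_cases hm : m = 0
        · subst hm; simp
        · simp [hm]
      show HasSum _ (f τ)
      rw [hfc τ, e]
      exact hasSum_ite_eq (0 : ℕ) c) 0
  ext τ
  rw [hfc τ, Fun.algebraMap_apply]
  simp only [if_true] at h2
  rw [h2]
  exact h1.symm

/-! ### The induction on the pole order -/

theorem algebraMap_eq_single (c : Kc) :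
    algebraMap Kc (LaurentSeries Kc) c = HahnSeries.single 0 c := by
  have h1 : algebraMap Kc (PowerSeries Kc) c = PowerSeries.C c := by simp
  rw [HahnSeries.algebraMap_apply', h1, HahnSeries.ofPowerSeries_C]
  rfl

theorem coeff_algebraMap_mul (c : Kc) (x : LaurentSeries Kc) (n : ℤ) :
    (algebraMap Kc (LaurentSeries Kc) c * x).coeff n = c * x.coeff n := by
  rw [algebraMap_eq_single, HahnSeries.coeff_single_mul, sub_zero]

theorem coeff_qExpand_jqModC_pow (M : ℕ) [NeZero M] (b : ℕ) :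
    ((ModularCurve.qExpand Kc M (ModularCurve.jqModC Kc)) ^ b).coeff (-((M : ℤ) * b)) = 1 := by
  rw [← map_pow, ← mul_neg, ModularCurve.qExpand_coeff_mul]
  exact ModularCurve.coeff_jqModC_pow_self Kc b

theorem coeff_qExpand_jqModC_pow_of_lt (M : ℕ) [NeZero M] (b : ℕ) {n : ℤ}
    (hn : n < -((M : ℤ) * b)) :
    ((ModularCurve.qExpand Kc M (ModularCurve.jqModC Kc)) ^ b).coeff n = 0 := by
  rw [← map_pow]
  by_cases hdvd : (M : ℤ) ∣ n
  · obtain ⟨k, rfl⟩ := hdvd
    rw [ModularCurve.qExpand_coeff_mul]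
    refine ModularCurve.coeff_jqModC_pow_of_lt Kc ?_
    have hM : (0 : ℤ) < M := by exact_mod_cast Nat.pos_of_ne_zero (NeZero.ne M)
    have h1 : (M : ℤ) * k < (M : ℤ) * (-(b : ℤ)) := by rw [mul_neg]; exact hn
    exact lt_of_mul_lt_mul_left h1 hM.le
  · exact ModularCurve.qExpand_coeff_of_not_dvd M _ hdvd

theorem exists_aeval_of_bound (M : ℕ) [NeZero M] :
    ∀ (N : ℕ) (f : Fun), f ∈ AL M → (∀ γ : SL(2, ℤ), γ • f = f) →
      ∀ a : LaurentSeries Kc, HasExp M f a →
      (∀ n : ℤ, n < -((M : ℤ) * N) → a.coeff n = 0) →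
      ∃ P : Polynomial Kc, Polynomial.aeval jFun P = f := by
  intro N
  induction N with
  | zero =>
      intro f hf hinv a ha h0
      refine ⟨Polynomial.C (a.coeff 0), ?_⟩
      rw [Polynomial.aeval_C]
      exact (eq_algebraMap_of_no_pole hinv (isHol_of_mem_AL hf) ha (by simpa using h0)).symm
  | succ N ih =>
      intro f hf hinv a ha h0
      have hM : (0 : ℤ) < M := by exact_mod_cast Nat.pos_of_ne_zero (NeZero.ne M)
      set c : Kc := a.coeff (-((M : ℤ) * ((N + 1 : ℕ) : ℤ))) with hc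
      set J : LaurentSeries Kc := ModularCurve.qExpand Kc M (ModularCurve.jqModC Kc)
        with hJ
      have hJexp : HasExp M jFun J := hasExp_jFun M
      have hg_exp : HasExp M (f - algebraMap Kc Fun c * jFun ^ (N + 1))
          (a - algebraMap Kc (LaurentSeries Kc) c * J ^ (N + 1)) :=
        ha.sub ((HasExp.algebraMap M c).mul (hasExp_pow hJexp (N + 1)))
      have hg_mem : f - algebraMap Kc Fun c * jFun ^ (N + 1) ∈ AL M :=
        sub_mem hf (mul_mem (Subalgebra.algebraMap_mem _ c) (pow_mem (jAL M).2 _))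
      have hg_inv : ∀ γ : SL(2, ℤ), γ • (f - algebraMap Kc Fun c * jFun ^ (N + 1))
          = f - algebraMap Kc Fun c * jFun ^ (N + 1) := by
        intro γ
        have h1 : γ • (algebraMap Kc Fun c) = algebraMap Kc Fun c := by
          ext τ; simp
        rw [smul_sub, smul_mul', smul_pow', hinv γ, jFun_smul γ, h1]
      have hT : ModularGroup.T • f = f := hinv _
      have hcoeff : ∀ n : ℤ, n < -((M : ℤ) * (N : ℤ)) →
          (a - algebraMap Kc (LaurentSeries Kc) c * J ^ (N + 1)).coeff n = 0 := by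
        intro n hn
        rw [HahnSeries.coeff_sub, coeff_algebraMap_mul]
        by_cases hdvd : (M : ℤ) ∣ n
        · obtain ⟨k, rfl⟩ := hdvd
          have hk : k < -(N : ℤ) := by
            have h1 : (M : ℤ) * k < (M : ℤ) * (-(N : ℤ)) := by rw [mul_neg]; exact hn
            exact lt_of_mul_lt_mul_left h1 hM.le
          rcases lt_or_eq_of_le (show k ≤ -((N + 1 : ℕ) : ℤ) by push_cast; omega) with hlt | heq
          · have h2 : (M : ℤ) * k < -((M : ℤ) * ((N + 1 : ℕ) : ℤ)) := by
              rw [← mul_neg]; exact mul_lt_mul_of_pos_left hlt hM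
            rw [h0 _ h2, coeff_qExpand_jqModC_pow_of_lt M (N + 1) h2, mul_zero, sub_zero]
          · subst heq
            rw [mul_neg, coeff_qExpand_jqModC_pow M (N + 1), mul_one, ← hc, sub_self]
        · rw [coeff_eq_zero_of_T_smul ha hT hdvd, zero_sub, neg_eq_zero]
          have : (J ^ (N + 1)).coeff n = 0 := by
            rw [hJ, ← map_pow]
            exact ModularCurve.qExpand_coeff_of_not_dvd M _ hdvd
          rw [this, mul_zero]
      obtain ⟨P, hP⟩ := ih _ hg_mem hg_inv _ hg_exp hcoeff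
      refine ⟨P + Polynomial.C c * Polynomial.X ^ (N + 1), ?_⟩
      rw [map_add, map_mul, Polynomial.aeval_C, map_pow, Polynomial.aeval_X, hP]
      exact sub_add_cancel _ _

/-- **AN-D, AL-level.** An invariant function in `AL M` is a polynomial in `j` over `Kc`
(Fun-level statement). -/
theorem exists_aeval_jFun_eq_of_invariant (M : ℕ) [NeZero M]
    (hgens : ∀ f ∈ gens M, ∃ a : LaurentSeries Kc, HasExp M f a)
    {f : Fun} (hf : f ∈ AL M) (hinv : ∀ γ : SL(2, ℤ), γ • f = f) :
    ∃ P : Polynomial Kc, Polynomial.aeval jFun P = f := by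
  obtain ⟨a, ha⟩ := exists_hasExp_of_mem_AL M hgens hf
  obtain ⟨m, p, hap, hp⟩ := id ha
  refine exists_aeval_of_bound M m f hf hinv a ha ?_
  intro n hn
  rw [hap]
  refine coeff_eq_zero_of_lt_of_hasExp_aux m p (lt_of_lt_of_le hn ?_)
  have hM : (1 : ℤ) ≤ M := by exact_mod_cast Nat.pos_of_ne_zero (NeZero.ne M)
  have hm : (0 : ℤ) ≤ m := Int.natCast_nonneg m
  nlinarith

/-- **AN-D, AL-level.** An `SL(2,ℤ)`-invariant element of `AL M` is a polynomial in `j` with
coefficients in `Kc`. -/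
theorem exists_aeval_eq_of_invariant_of (M : ℕ) [NeZero M]
    (hgens : ∀ f ∈ gens M, ∃ a : LaurentSeries Kc, HasExp M f a)
    (f : AL M) (hf : ∀ γ : SL(2, ℤ), γ • f = f) :
    ∃ P : Polynomial Kc, Polynomial.aeval (jAL M) P = f := by
  have hinv : ∀ γ : SL(2, ℤ), γ • (f : Fun) = (f : Fun) := by
    intro γ
    have := congrArg (fun g : AL M => (g : Fun)) (hf γ)
    simpa using this
  obtain ⟨P, hP⟩ := exists_aeval_jFun_eq_of_invariant M hgens f.2 hinv
  refine ⟨P, Subtype.ext ?_⟩
  rw [← hP]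
  have h1 := Polynomial.aeval_algHom_apply (AL M).val (jAL M) P
  exact h1.symm

end Fermat.Agent.F3DictInv
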