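/-
S24, AN-V (the cusp `∞`), helper26: the order in `u = exp(2πiτ/M)` as a valuation of `LL M`.

Everything is built on the `HasExp` API of `Expansion.lean`.  The two analytic inputs
(`exists_hasExp_of_mem_gens`, `hasExp_jd` of AN-X) enter as hypotheses `hgens`, `hj`.
-/
import Mathlib
import Fermat.Agent.F3.DictC.Field

set_option autoImplicit false

noncomputable section

namespace Fermat.Agent.F3Dict

open UpperHalfPlane
open scoped MatrixGroups

/-! ### Valuation of Laurent series through coefficients -/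

section Laurent

variable {K : Type*} [Field K]

theorem laurent_valuation_eq_of_coeff {f : LaurentSeries K} {D : ℤ} (h0 : f.coeff D ≠ 0)
    (hlt : ∀ n < D, f.coeff n = 0) :
    (Valued.v f : WithZero (Multiplicative ℤ)) = WithZero.exp (-D) := by
  have h1 : Valued.v f ≤ WithZero.exp (-D) :=
    (LaurentSeries.valuation_le_iff_coeff_lt_eq_zero K).mpr hlt
  have h2 : ¬ Valued.v f ≤ WithZero.exp (-(D + 1)) := fun h =>
    h0 ((LaurentSeries.valuation_le_iff_coeff_lt_eq_zero K).mp h D (by omega))
  have hne : Valued.v f ≠ 0 := fun h => h2 (by rw [h]; exact zero_le)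
  obtain ⟨k, hk⟩ : ∃ k : ℤ, Valued.v f = WithZero.exp k :=
    ⟨WithZero.log (Valued.v f), (WithZero.exp_log hne).symm⟩
  rw [hk] at h1 h2 ⊢
  rw [WithZero.exp_le_exp] at h1 h2
  congr 1
  omega

theorem laurent_valuation_eq_of_coeff_iff {f g : LaurentSeries K}
    (h : ∀ n : ℤ, f.coeff n = 0 ↔ g.coeff n = 0) :
    (Valued.v f : WithZero (Multiplicative ℤ)) = Valued.v g := by
  by_cases hf : f = 0
  · have hg : g = 0 := by
      ext n
      exact (h n).mp (by rw [hf]; rfl)
    rw [hf, hg]
  · have hg : g ≠ 0 := by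
      rintro rfl
      apply hf
      ext n
      exact (h n).mpr rfl
    have key : ∀ {a b : LaurentSeries K}, a ≠ 0 → (∀ n : ℤ, a.coeff n = 0 ↔ b.coeff n = 0) →
        (Valued.v b : WithZero (Multiplicative ℤ)) ≤ Valued.v a := by
      intro a b ha hab
      have hne : (Valued.v a : WithZero (Multiplicative ℤ)) ≠ 0 :=
        (Valuation.ne_zero_iff _).mpr ha
      have hk : (Valued.v a : WithZero (Multiplicative ℤ)) =
          WithZero.exp (- -(WithZero.log (Valued.v a))) := by
        rw [neg_neg, WithZero.exp_log hne]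
      rw [hk, LaurentSeries.valuation_le_iff_coeff_lt_eq_zero K]
      intro n hn
      exact (hab n).mp
        ((LaurentSeries.valuation_le_iff_coeff_lt_eq_zero K).mp (le_of_eq hk) n hn)
    exact le_antisymm (key hg fun n => (h n).symm) (key hf h)

end Laurent

/-! ### The expansion homomorphism -/

/-- The subalgebra of the functions that have a Laurent expansion in `u`. -/
def EL (M : ℕ) [NeZero M] : Subalgebra Kc Fun where
  carrier := {f | ∃ a : LaurentSeries Kc, HasExp M f a}
  mul_mem' := by
    rintro f g ⟨a, ha⟩ ⟨b, hb⟩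
    exact ⟨a * b, ha.mul hb⟩
  add_mem' := by
    rintro f g ⟨a, ha⟩ ⟨b, hb⟩
    exact ⟨a + b, ha.add hb⟩
  algebraMap_mem' c := ⟨_, HasExp.algebraMap M c⟩

theorem mem_EL {M : ℕ} [NeZero M] {f : Fun} : f ∈ EL M ↔ ∃ a : LaurentSeries Kc, HasExp M f a :=
  Iff.rfl

/-- The expansion of an element of `EL M`. -/
def expEL (M : ℕ) [NeZero M] (f : EL M) : LaurentSeries Kc := (mem_EL.mp f.2).choose

theorem hasExp_expEL {M : ℕ} [NeZero M] (f : EL M) : HasExp M (f : Fun) (expEL M f) :=
  (mem_EL.mp f.2).choose_spec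

theorem expEL_eq {M : ℕ} [NeZero M] {f : EL M} {a : LaurentSeries Kc}
    (h : HasExp M (f : Fun) a) : expEL M f = a :=
  (hasExp_expEL f).unique h

/-- The expansion as a homomorphism of `Kc`-algebras. -/
def expELHom (M : ℕ) [NeZero M] : EL M →ₐ[Kc] LaurentSeries Kc where
  toFun := expEL M
  map_one' := expEL_eq (by
    have h := HasExp.algebraMap M 1
    rwa [map_one, map_one] at h)
  map_mul' f g := expEL_eq ((hasExp_expEL f).mul (hasExp_expEL g))
  map_zero' := expEL_eq (by
    have h := HasExp.algebraMap M 0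
    rwa [map_zero, map_zero] at h)
  map_add' f g := expEL_eq ((hasExp_expEL f).add (hasExp_expEL g))
  commutes' c := expEL_eq (HasExp.algebraMap M c)

theorem expELHom_apply {M : ℕ} [NeZero M] (f : EL M) : expELHom M f = expEL M f := rfl

theorem expELHom_injective (M : ℕ) [NeZero M] : Function.Injective (expELHom M) := by
  intro f g h
  apply Subtype.ext
  have hf := hasExp_expEL f
  have hg := hasExp_expEL g
  rw [expELHom_apply, expELHom_apply] at h
  rw [h] at hf
  exact hf.fun_unique hg

theorem AL_le_EL {M : ℕ} [NeZero M]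
    (hgens : ∀ f ∈ gens M, ∃ a : LaurentSeries Kc, HasExp M f a) : AL M ≤ EL M :=
  Algebra.adjoin_le fun f hf => hgens f hf

/-- The expansion of the elements of `AL M`. -/
def expAL {M : ℕ} [NeZero M]
    (hgens : ∀ f ∈ gens M, ∃ a : LaurentSeries Kc, HasExp M f a) :
    AL M →ₐ[Kc] LaurentSeries Kc :=
  (expELHom M).comp (Subalgebra.inclusion (AL_le_EL hgens))

section

variable {M : ℕ} [NeZero M] (hgens : ∀ f ∈ gens M, ∃ a : LaurentSeries Kc, HasExp M f a)

theorem hasExp_expAL (f : AL M) : HasExp M (f : Fun) (expAL hgens f) :=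
  hasExp_expEL (Subalgebra.inclusion (AL_le_EL hgens) f)

theorem expAL_eq {f : AL M} {a : LaurentSeries Kc} (h : HasExp M (f : Fun) a) :
    expAL hgens f = a :=
  (hasExp_expAL hgens f).unique h

theorem expAL_injective : Function.Injective (expAL hgens) :=
  (expELHom_injective M).comp (Subalgebra.inclusion_injective (AL_le_EL hgens))

/-- The order at `∞` as a valuation of `AL M`. -/
def valInfAL : Valuation (AL M) (WithZero (Multiplicative ℤ)) :=
  (Valued.v : Valuation (LaurentSeries Kc) (WithZero (Multiplicative ℤ))).comap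
    (expAL hgens).toRingHom

theorem valInfAL_apply (f : AL M) :
    valInfAL hgens f = Valued.v (expAL hgens f) := rfl

theorem valInfAL_eq_zero_iff (f : AL M) : valInfAL hgens f = 0 ↔ f = 0 := by
  rw [valInfAL_apply, Valuation.zero_iff]
  exact map_eq_zero_iff _ (expAL_injective hgens)

theorem nonZeroDivisors_le_valInfAL_supp :
    nonZeroDivisors (AL M) ≤ (valInfAL hgens).supp.primeCompl := by
  intro f hf hmem
  rw [SetLike.mem_coe, Valuation.mem_supp_iff, valInfAL_eq_zero_iff] at hmem
  exact nonZeroDivisors.ne_zero hf hmem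

theorem valInfAL_T_smul (f : AL M) :
    valInfAL hgens (ModularGroup.T • f) = valInfAL hgens f := by
  obtain ⟨b, hb, ζ, hζ, hcoeff⟩ := (hasExp_expAL hgens f).T_smul
  have hb' : HasExp M ((ModularGroup.T • f : AL M) : Fun) b := hb
  rw [valInfAL_apply, valInfAL_apply, expAL_eq hgens hb']
  have hζ0 : ζ ≠ 0 := by
    rintro rfl
    rw [map_zero] at hζ
    exact Complex.exp_ne_zero _ hζ.symm
  refine laurent_valuation_eq_of_coeff_iff fun n => ?_
  rw [hcoeff n]
  constructor
  · intro h
    exact (mul_eq_zero.mp h).resolve_left (zpow_ne_zero n (inv_ne_zero hζ0))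
  · intro h
    rw [h, mul_zero]

/-- The order at `∞` as a valuation of `LL M`. -/
def valInfLL : Valuation (LL M) (WithZero (Multiplicative ℤ)) :=
  (valInfAL hgens).extendToLocalization (nonZeroDivisors_le_valInfAL_supp hgens) (LL M)

theorem valInfLL_algebraMap (f : AL M) :
    valInfLL hgens (algebraMap (AL M) (LL M) f) = valInfAL hgens f :=
  Valuation.extendToLocalization_apply_map_apply _ _ _ f

theorem valInfLL_T_smul (x : LL M) :
    valInfLL hgens (ModularGroup.T • x) = valInfLL hgens x := by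
  obtain ⟨a, b, hb, rfl⟩ := IsFractionRing.div_surjective (A := AL M) x
  rw [smul_div₀', LL.smul_algebraMap, LL.smul_algebraMap, map_div₀, map_div₀,
    valInfLL_algebraMap, valInfLL_algebraMap, valInfLL_algebraMap, valInfLL_algebraMap,
    valInfAL_T_smul, valInfAL_T_smul]

theorem valInfLL_algebraMap_Kbar {a : Kc} (ha : a ≠ 0) :
    valInfLL hgens (algebraMap Kc (LL M) a) = 1 := by
  rw [IsScalarTower.algebraMap_apply Kc (AL M) (LL M), valInfLL_algebraMap, valInfAL_apply,
    AlgHom.commutes]
  have h := laurent_valuation_eq_of_coeff (f := algebraMap Kc (LaurentSeries Kc) a) (D := 0)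
    (by simpa [LaurentSeries.algebraMap_apply] using ha)
    (fun n hn => by
      rw [LaurentSeries.algebraMap_apply]
      show (HahnSeries.single (0 : ℤ) a).coeff n = 0
      exact HahnSeries.coeff_single_of_ne hn.ne)
  simpa using h

end

/-! ### The valuation of `j` -/

theorem coeff_qExpand_jqModC (M : ℕ) [NeZero M] :
    (ModularCurve.qExpand Kc M (ModularCurve.jqModC Kc)).coeff (-(M : ℤ)) = 1 := by
  have h1 : (-(M : ℤ)) = (M : ℤ) * (-1) := by ring
  rw [h1, ModularCurve.qExpand_coeff_mul, ModularCurve.jqModC]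
  have h2 := HahnSeries.coeff_single_mul_add (r := (1 : Kc))
    (x := HahnSeries.ofPowerSeries ℤ Kc (ModularCurve.jNum.map (Int.castRingHom Kc)))
    (a := (0 : ℤ)) (b := (-1 : ℤ))
  rw [zero_add, one_mul] at h2
  rw [h2]
  have h3 : ((0 : ℕ) : ℤ) = 0 := rfl
  rw [← h3, HahnSeries.ofPowerSeries_apply_coeff, PowerSeries.coeff_map,
    PowerSeries.coeff_zero_eq_constantCoeff, ModularCurve.constantCoeff_jNum]
  simp

theorem coeff_qExpand_jqModC_of_lt (M : ℕ) [NeZero M] {n : ℤ} (hn : n < -(M : ℤ)) :
    (ModularCurve.qExpand Kc M (ModularCurve.jqModC Kc)).coeff n = 0 := by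
  by_cases hdvd : (M : ℤ) ∣ n
  · obtain ⟨k, rfl⟩ := hdvd
    have hM : (0 : ℤ) < M := by exact_mod_cast Nat.pos_of_ne_zero (NeZero.ne M)
    have hk : k + 1 < 0 := by
      by_contra hcon
      have hcon' := not_lt.mp hcon
      have : -(M : ℤ) ≤ (M : ℤ) * k := by nlinarith
      omega
    rw [ModularCurve.qExpand_coeff_mul, ModularCurve.jqModC]
    have h2 := HahnSeries.coeff_single_mul_add (r := (1 : Kc))
      (x := HahnSeries.ofPowerSeries ℤ Kc (ModularCurve.jNum.map (Int.castRingHom Kc)))
      (a := k + 1) (b := (-1 : ℤ))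
    rw [one_mul, show k + 1 + -1 = k by ring] at h2
    rw [h2]
    exact ModularCurve.ofPowerSeries_coeff_of_neg _ hk
  · exact ModularCurve.qExpand_coeff_of_not_dvd M _ hdvd

theorem laurent_valuation_qExpand_jqModC (M : ℕ) [NeZero M] :
    (Valued.v (ModularCurve.qExpand Kc M (ModularCurve.jqModC Kc)) :
      WithZero (Multiplicative ℤ)) = WithZero.exp (M : ℤ) := by
  have h := laurent_valuation_eq_of_coeff
    (f := ModularCurve.qExpand Kc M (ModularCurve.jqModC Kc)) (D := -(M : ℤ))
    (by rw [coeff_qExpand_jqModC]; exact one_ne_zero)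
    (fun n hn => coeff_qExpand_jqModC_of_lt M hn)
  rwa [neg_neg] at h

/-- Order in `u = exp(2πiτ/M)` at the cusp `∞` as a valuation of `LL M`, given the expansions of
the generators and of `j` (AN-X). -/
theorem exists_valuation_inf_of (M : ℕ) [NeZero M]
    (hgens : ∀ f ∈ gens M, ∃ a : LaurentSeries Kc, HasExp M f a)
    (hj : HasExp M jFun (ModularCurve.qExpand Kc M (ModularCurve.jqModC Kc))) :
    ∃ w : Valuation (LL M) (WithZero (Multiplicative ℤ)),
      (∀ a : Kc, a ≠ 0 → w (algebraMap Kc (LL M) a) = 1) ∧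
      w (jLL M) = WithZero.exp (M : ℤ) ∧
      (∀ x : LL M, w (ModularGroup.T • x) = w x) := by
  refine ⟨valInfLL hgens, fun a ha => valInfLL_algebraMap_Kbar hgens ha, ?_,
    fun x => valInfLL_T_smul hgens x⟩
  have hj' : HasExp M ((jAL M : AL M) : Fun)
      (ModularCurve.qExpand Kc M (ModularCurve.jqModC Kc)) := hj
  rw [jLL, valInfLL_algebraMap, valInfAL_apply, expAL_eq hgens hj',
    laurent_valuation_qExpand_jqModC]

end Fermat.Agent.F3Dict
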