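/-
S24, global datum (helper17): `jLL M` is transcendental and invariant, a finite index subgroup
acts trivially on `LL M`, and the Prelude's function field of `X₀(N)` has a nonzero differential.
-/
import Mathlib
import Fermat.Agent.F3.DictC.Periods
import Fermat.Agent.F3.DictC.ValInf
import Fermat.Agent.F3.DictC.GensExp
import Fermat.Agent.F3.DictC.Invariants
import Fermat.Agent.F3.DictC.InvariantsFrac
import Fermat.Agent.F3.DictC.EmbF
import Fermat.Agent.S24.GaloisDatum
import Fermat.Agent.S24.Differential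
import Fermat.Agent.S24.Residue

set_option autoImplicit false

noncomputable section

open KaehlerDifferential

namespace Fermat.Agent.F3Dict

open UpperHalfPlane
open scoped MatrixGroups Manifold

theorem transcendental_jLL (M : ℕ) [NeZero M] : Transcendental Kc (jLL M) := by
  intro halg
  obtain ⟨a, ha⟩ := S24Res.mem_range_of_isAlgebraic halg
  obtain ⟨w, hwK, hwj, -⟩ := exists_valuation_inf_of M
    (fun f hf => exists_hasExp_of_mem_gens M hf) (F3DictInv.hasExp_jFun M)
  rw [← ha] at hwj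
  by_cases h0 : a = 0
  · rw [h0, map_zero, map_zero] at hwj
    exact WithZero.exp_ne_zero hwj.symm
  · rw [hwK a h0, ← WithZero.exp_zero] at hwj
    have h1 : (0 : ℤ) = (M : ℤ) := WithZero.exp_injective hwj
    have h2 : M = 0 := by exact_mod_cast h1.symm
    exact NeZero.ne M h2

theorem exists_finiteIndex_fixing (M : ℕ) [NeZero M] :
    ∃ Γ' : Subgroup SL(2, ℤ), Γ'.FiniteIndex ∧ ∀ g ∈ Γ', ∀ x : LL M, g • x = x :=
  ⟨CongruenceSubgroup.Gamma M, inferInstance, fun g hg x => Gamma_smul_eq M g hg x⟩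

theorem smul_jLL (M : ℕ) [NeZero M] (g : SL(2, ℤ)) : g • jLL M = jLL M := by
  rw [jLL, LL.smul_algebraMap]
  congr 1
  apply Subtype.ext
  exact jFun_smul g

/-- Finite-dimensionality of `F / K(t)` from a Galois datum on an overfield `L ⊇ φ(F)`. -/
theorem GlobalDatum.finiteDimensional_of_algHom {K F L Γ : Type*} [Field K] [Field F] [Field L]
    [Algebra K F] [Algebra K L] [Group Γ] [MulSemiringAction Γ L] [SMulCommClass Γ K L]
    (φ : F →ₐ[K] L) (t : F)
    (hfin : ∃ Γ' : Subgroup Γ, Γ'.FiniteIndex ∧ ∀ g ∈ Γ', ∀ x : L, g • x = x)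
    (ht : ∀ g : Γ, g • φ t = φ t)
    (hfix : ∀ x : L, (∀ g : Γ, g • x = x) → x ∈ IntermediateField.adjoin K {φ t})
    (H : Subgroup Γ) (hH : ∀ g : Γ, g ∈ H ↔ ∀ x : F, g • φ x = φ x) :
    FiniteDimensional (IntermediateField.adjoin K {t}) F := by
  let _ : Algebra F L := φ.toRingHom.toAlgebra
  have : IsScalarTower K F L := IsScalarTower.of_algebraMap_eq (fun a => (φ.commutes a).symm)
  exact (S24Gal.finrank_eq_index (Γ := Γ) (L := L) t hfin ht hfix H hH).1

theorem transcendental_jBar_aux (N : ℕ) [NeZero N] : Transcendental Kc (jBar N) := by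
  have hN2 : NeZero (2 * N) := ⟨by have := NeZero.ne N; omega⟩
  obtain ⟨φ, hφj, -⟩ := exists_embF N
  intro h
  have h1 : IsAlgebraic Kc (φ (jBar N)) := IsAlgebraic.algHom φ h
  rw [hφj] at h1
  exact transcendental_jLL (2 * N) h1

theorem finiteDimensional_adjoin_jBar (N : ℕ) [NeZero N] :
    FiniteDimensional (IntermediateField.adjoin Kc {jBar N})
      ↥(FC N) := by
  have hN2 : NeZero (2 * N) := ⟨by have := NeZero.ne N; omega⟩
  obtain ⟨φ, hφj, hφH⟩ := exists_embF N
  refine GlobalDatum.finiteDimensional_of_algHom (Γ := SL(2, ℤ)) φ (jBar N)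
    (exists_finiteIndex_fixing (2 * N)) ?_ ?_ (CongruenceSubgroup.Gamma0 N) (fun g => hφH g)
  · intro g
    rw [hφj]
    exact smul_jLL (2 * N) g
  · intro x hx
    rw [hφj]
    exact mem_adjoin_jLL_of_invariant_of (2 * N) (Gamma_smul_eq (2 * N))
      (F3DictInv.exists_aeval_eq_of_invariant_of (2 * N)
        (fun f hf => exists_hasExp_of_mem_gens (2 * N) hf)) x hx

theorem isFunctionFieldOver_jBar (N : ℕ) [NeZero N] :
    S24Diff.IsFunctionFieldOver Kc ↥(FC N) (jBar N) :=
  ⟨transcendental_jBar_aux N, finiteDimensional_adjoin_jBar N⟩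

theorem exists_nonzero_differential (N : ℕ) [NeZero N] :
    ∃ ω : Ω[↥(FC N)⁄Kc], ω ≠ 0 :=
  ⟨_, S24Diff.D_ne_zero (isFunctionFieldOver_jBar N) (transcendental_jBar_aux N)⟩

end Fermat.Agent.F3Dict
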